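/-
S34 / B' (helper54): the KRULL property of normal noetherian domains, Mathlib only.

`C` a noetherian integrally closed domain with fraction field `K`.

* `denIdeal y` : the ideal of denominators `{c | c * y ∈ C}` of `y : K`.
* `height_eq_one_of_denominators` : a PRIME ideal of denominators has height one.
* `exists_prime_denIdeal` : for `y ∉ C` some multiple `c * y ∉ C` has a prime ideal of denominators.
* `mem_range_of_forall_height_one` (K2) : `y` lies in `C` as soon as it lies in the localisation
  of `C` at every height-one prime.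
* `mem_range_of_inv_and_minimal` (K3) : `C = C[1/ϖ] ∩ ⋂_{ϖ ∈ P, ht P = 1} C_P`;
  `mem_range_of_inv_and_minimalPrimes` (K3') : the same over the minimal primes of `(ϖ)`;
  `dvd_of_forall_minimalPrimes` : `ϖ ∣ z` in `C` if `ϖ ∣ z` at every minimal prime over `(ϖ)`.
* `height_eq_one_of_mem_associatedPrimes` (K4) : associated primes of a nonzero principal ideal
  have height one.
* `isDiscreteValuationRing_atPrime_of_height_one` (K1) : the localisation at a height-one prime
  is a discrete valuation ring.
-/
import Mathlib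

set_option autoImplicit false

namespace Fermat.Agent.S34.H54

section Den

variable {C : Type*} [CommRing C] {K : Type*} [Field K] [Algebra C K]

/-- The ideal of denominators of `y : K`: all `c : C` with `c * y ∈ C`. -/
def denIdeal (y : K) : Ideal C where
  carrier := {c | algebraMap C K c * y ∈ (algebraMap C K).range}
  add_mem' := by
    intro a b ha hb
    show algebraMap C K (a + b) * y ∈ (algebraMap C K).range
    rw [map_add, add_mul]
    exact add_mem ha hb
  zero_mem' := by
    show algebraMap C K 0 * y ∈ (algebraMap C K).range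
    rw [map_zero, zero_mul]
    exact zero_mem _
  smul_mem' := by
    intro c a ha
    show algebraMap C K (c * a) * y ∈ (algebraMap C K).range
    rw [map_mul, mul_assoc]
    exact mul_mem ⟨c, rfl⟩ ha

theorem mem_denIdeal {y : K} {c : C} :
    c ∈ denIdeal (C := C) y ↔ algebraMap C K c * y ∈ (algebraMap C K).range := Iff.rfl

end Den

variable {C : Type*} [CommRing C] [IsDomain C] [IsNoetherianRing C] [IsIntegrallyClosed C]
variable {K : Type*} [Field K] [Algebra C K] [IsFractionRing C K]

/-- **Core.**  In a noetherian integrally closed domain, a prime ideal which is the ideal of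
denominators of an element of the fraction field has height one. -/
theorem height_eq_one_of_denominators (P : Ideal C) [hP : P.IsPrime] (y : K)
    (hy : ∀ c : C, c ∈ P ↔ algebraMap C K c * y ∈ (algebraMap C K).range) :
    P.height = 1 := by
  have hinj : Function.Injective (algebraMap C K) := IsFractionRing.injective C K
  -- `y ∉ C`
  have hy1 : y ∉ (algebraMap C K).range := by
    intro h
    have h1 : (1 : C) ∈ P := (hy 1).2 (by simpa using h)
    exact hP.ne_top ((Ideal.eq_top_iff_one P).2 h1)
  -- `P ≠ ⊥`
  obtain ⟨a, b, hb, hab⟩ := IsFractionRing.div_surjective (A := C) y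
  have hb0 : b ≠ 0 := nonZeroDivisors.ne_zero hb
  have hbK : algebraMap C K b ≠ 0 := fun h => hb0 (hinj (by simpa using h))
  have hbP : b ∈ P := by
    refine (hy b).2 ⟨a, ?_⟩
    rw [← hab, mul_div_cancel₀ _ hbK]
  have hP0 : P ≠ ⊥ := fun h => hb0 (by simpa [h] using hbP)
  have hge : (1 : ℕ∞) ≤ P.height := by
    rw [Order.one_le_iff_pos, pos_iff_ne_zero, Ne, Ideal.height_eq_zero_iff_eq_bot]
    exact hP0
  refine le_antisymm ?_ hge
  by_cases hA : ∀ π ∈ P, ∃ u ∈ P, algebraMap C K π * y = algebraMap C K u
  · -- `y P ⊆ P`: then `y` is integral over `C`, contradiction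
    exfalso
    apply hy1
    let N : Submodule C K := Submodule.map (Algebra.linearMap C K) P
    have hN : N ≠ ⊥ := by
      intro h
      have hbN : algebraMap C K b ∈ N := ⟨b, hbP, rfl⟩
      rw [h, Submodule.mem_bot] at hbN
      exact hbK hbN
    have hN' : N.FG := Submodule.FG.map _ (IsNoetherian.noetherian P)
    have hint : IsIntegral C y := by
      refine isIntegral_of_smul_mem_submodule N hN hN' y ?_
      rintro n ⟨π, hπ, rfl⟩
      obtain ⟨u, hu, hπu⟩ := hA π hπ
      refine ⟨u, hu, ?_⟩
      simp only [Algebra.linearMap_apply, smul_eq_mul]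
      rw [← hπu, mul_comm]
    obtain ⟨c, hc⟩ := IsIntegrallyClosed.isIntegral_iff.1 hint
    exact ⟨c, hc⟩
  · -- some `π ∈ P` has `π y = u ∉ P`: then `u P ⊆ (π)` and `P` is minimal over `(π)`
    push Not at hA
    obtain ⟨π, hπ, hπu⟩ := hA
    obtain ⟨u, hu⟩ := (hy π).1 hπ
    have huP : u ∉ P := fun h => hπu u h hu.symm
    have hmin : P ∈ (Ideal.span {π} : Ideal C).minimalPrimes := by
      refine ⟨⟨hP, (Ideal.span_singleton_le_iff_mem P).2 hπ⟩, ?_⟩
      rintro Q ⟨hQ, hQle⟩ hQP c hc
      obtain ⟨v, hv⟩ := (hy c).1 hc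
      have huc : u * c = π * v := by
        apply hinj
        rw [map_mul, map_mul, hu, hv]
        ring
      have hmem : u * c ∈ Q := by
        rw [huc]
        exact Q.mul_mem_right v (hQle (Ideal.mem_span_singleton_self π))
      rcases hQ.mem_or_mem hmem with h | h
      · exact absurd (hQP h) huP
      · exact h
    exact Ideal.height_le_one_of_isPrincipal_of_mem_minimalPrimes (Ideal.span {π}) P hmin

omit [IsDomain C] [IsIntegrallyClosed C] [IsFractionRing C K] in
/-- For `y ∉ C` some multiple `y' = c * y ∉ C` has a PRIME ideal of denominators. -/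
theorem exists_prime_denIdeal (y : K) (hy : y ∉ (algebraMap C K).range) :
    ∃ c : C, algebraMap C K c * y ∉ (algebraMap C K).range ∧
      (denIdeal (C := C) (algebraMap C K c * y)).IsPrime := by
  let S : Set (Ideal C) :=
    {I | ∃ c : C, algebraMap C K c * y ∉ (algebraMap C K).range ∧
      I = denIdeal (algebraMap C K c * y)}
  have hS : S.Nonempty := ⟨denIdeal (algebraMap C K 1 * y), 1, by simpa using hy, rfl⟩
  obtain ⟨P, ⟨c₀, hc₀, rfl⟩, hmax⟩ :=
    set_has_maximal_iff_noetherian.2 (inferInstance : IsNoetherian C C) S hS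
  refine ⟨c₀, hc₀, ?_⟩
  rw [Ideal.isPrime_iff]
  constructor
  · intro h
    have h1 : (1 : C) ∈ denIdeal (C := C) (algebraMap C K c₀ * y) := by rw [h]; trivial
    rw [mem_denIdeal] at h1
    exact hc₀ (by simpa using h1)
  · intro a b hab
    by_cases ha : a ∈ denIdeal (C := C) (algebraMap C K c₀ * y)
    · exact Or.inl ha
    · right
      have ha' : algebraMap C K (a * c₀) * y ∉ (algebraMap C K).range := by
        intro h
        apply ha
        rw [mem_denIdeal]
        rwa [map_mul, mul_assoc] at h
      have hle : denIdeal (C := C) (algebraMap C K c₀ * y) ≤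
          denIdeal (algebraMap C K (a * c₀) * y) := by
        intro c hc
        rw [mem_denIdeal] at hc ⊢
        have := mul_mem (⟨a, rfl⟩ : algebraMap C K a ∈ (algebraMap C K).range) hc
        have e : algebraMap C K c * (algebraMap C K (a * c₀) * y) =
            algebraMap C K a * (algebraMap C K c * (algebraMap C K c₀ * y)) := by
          rw [map_mul]; ring
        rwa [e]
      have hnlt := hmax (denIdeal (algebraMap C K (a * c₀) * y)) ⟨a * c₀, ha', rfl⟩
      have heq : denIdeal (C := C) (algebraMap C K c₀ * y) =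
          denIdeal (algebraMap C K (a * c₀) * y) := eq_of_le_of_not_lt hle hnlt
      rw [heq, mem_denIdeal]
      rw [mem_denIdeal] at hab
      have e : algebraMap C K b * (algebraMap C K (a * c₀) * y) =
          algebraMap C K (a * b) * (algebraMap C K c₀ * y) := by
        rw [map_mul, map_mul]; ring
      rwa [e]

/-- **(K2) Krull property.**  An element of the fraction field of a noetherian integrally closed
domain `C` which lies in the localisation of `C` at every height-one prime lies in `C`. -/
theorem mem_range_of_forall_height_one (y : K)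
    (h : ∀ P : Ideal C, P.IsPrime → P.height = 1 →
      ∃ s : C, s ∉ P ∧ algebraMap C K s * y ∈ (algebraMap C K).range) :
    y ∈ (algebraMap C K).range := by
  by_contra hy
  obtain ⟨c₀, hc₀, hprime⟩ := exists_prime_denIdeal (C := C) y hy
  have hht : (denIdeal (C := C) (algebraMap C K c₀ * y)).height = 1 :=
    height_eq_one_of_denominators _ (algebraMap C K c₀ * y) (fun c => Iff.rfl)
  obtain ⟨s, hs, hsy⟩ := h _ hprime hht
  apply hs
  rw [mem_denIdeal]
  have := mul_mem (⟨c₀, rfl⟩ : algebraMap C K c₀ ∈ (algebraMap C K).range) hsy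
  have e : algebraMap C K s * (algebraMap C K c₀ * y) =
      algebraMap C K c₀ * (algebraMap C K s * y) := by ring
  rwa [e]

/-- **(K2'), contrapositive form.**  If `y ∉ C` there is a height-one prime `P` at which `y` is
not integral: no `s ∉ P` has `s * y ∈ C`. -/
theorem exists_height_one_of_not_mem_range (y : K) (hy : y ∉ (algebraMap C K).range) :
    ∃ P : Ideal C, P.IsPrime ∧ P.height = 1 ∧
      ∀ s : C, algebraMap C K s * y ∈ (algebraMap C K).range → s ∈ P := by
  by_contra hcon
  push Not at hcon
  exact hy (mem_range_of_forall_height_one y fun P hP hht => by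
    obtain ⟨s, hs, hsP⟩ := hcon P hP hht
    exact ⟨s, hsP, hs⟩)

/-- **(K3)** `C = C[1/ϖ] ∩ ⋂_{ϖ ∈ P, ht P = 1} C_P`: an element of the fraction field which
becomes integral after multiplication by a power of `ϖ`, and which is integral at every
height-one prime containing `ϖ`, lies in `C`. -/
theorem mem_range_of_inv_and_minimal (ϖ : C) (y : K)
    (h1 : ∃ n : ℕ, algebraMap C K (ϖ ^ n) * y ∈ (algebraMap C K).range)
    (h2 : ∀ P : Ideal C, P.IsPrime → P.height = 1 → ϖ ∈ P →
      ∃ s : C, s ∉ P ∧ algebraMap C K s * y ∈ (algebraMap C K).range) :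
    y ∈ (algebraMap C K).range := by
  refine mem_range_of_forall_height_one y fun P hP hht => ?_
  by_cases hϖ : ϖ ∈ P
  · exact h2 P hP hht hϖ
  · obtain ⟨n, hn⟩ := h1
    exact ⟨ϖ ^ n, fun h => hϖ (hP.mem_of_pow_mem n h), hn⟩

omit [IsIntegrallyClosed C] in
/-- A minimal prime over a nonzero principal ideal of a noetherian domain has height one. -/
theorem height_eq_one_of_mem_minimalPrimes_span_singleton (ϖ : C) (hϖ : ϖ ≠ 0) (P : Ideal C)
    (hP : P ∈ (Ideal.span {ϖ} : Ideal C).minimalPrimes) : P.height = 1 := by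
  have hPp : P.IsPrime := hP.1.1
  refine le_antisymm
    (Ideal.height_le_one_of_isPrincipal_of_mem_minimalPrimes (Ideal.span {ϖ}) P hP) ?_
  rw [Order.one_le_iff_pos, pos_iff_ne_zero, Ne, Ideal.height_eq_zero_iff_eq_bot]
  intro h
  have hmem : ϖ ∈ P := hP.1.2 (Ideal.mem_span_singleton_self ϖ)
  rw [h, Ideal.mem_bot] at hmem
  exact hϖ hmem

omit [IsNoetherianRing C] [IsIntegrallyClosed C] in
/-- A height-one prime containing `ϖ ≠ 0` is a minimal prime over `(ϖ)`. -/
theorem mem_minimalPrimes_span_singleton_of_height_eq_one (ϖ : C) (hϖ : ϖ ≠ 0) (P : Ideal C)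
    [hP : P.IsPrime] (hht : P.height = 1) (hmem : ϖ ∈ P) :
    P ∈ (Ideal.span {ϖ} : Ideal C).minimalPrimes := by
  refine ⟨⟨hP, (Ideal.span_singleton_le_iff_mem P).2 hmem⟩, ?_⟩
  rintro Q ⟨hQ, hQle⟩ hQP
  by_contra hne
  have hlt : Q < P := lt_of_le_of_ne hQP (fun h => hne (h ▸ le_rfl))
  have h1 : P.height ≤ ((1 : ℕ) : ℕ∞) := by rw [hht]; rfl
  have h3 := (Ideal.height_le_iff.1 h1) Q hQ hlt
  have h0 : Q.height = 0 := by
    rw [Nat.cast_one] at h3
    exact Order.lt_one_iff.1 h3
  have hQ0 : Q = ⊥ := Ideal.height_eq_zero_iff_eq_bot.1 h0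
  have hϖQ : ϖ ∈ Q := hQle (Ideal.mem_span_singleton_self ϖ)
  rw [hQ0, Ideal.mem_bot] at hϖQ
  exact hϖ hϖQ

/-- **(K3')** The same with the minimal primes over `(ϖ)` (the components of the special fibre):
`C = C[1/ϖ] ∩ ⋂_{P minimal over ϖ} C_P`. -/
theorem mem_range_of_inv_and_minimalPrimes (ϖ : C) (hϖ : ϖ ≠ 0) (y : K)
    (h1 : ∃ n : ℕ, algebraMap C K (ϖ ^ n) * y ∈ (algebraMap C K).range)
    (h2 : ∀ P ∈ (Ideal.span {ϖ} : Ideal C).minimalPrimes,
      ∃ s : C, s ∉ P ∧ algebraMap C K s * y ∈ (algebraMap C K).range) :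
    y ∈ (algebraMap C K).range :=
  mem_range_of_inv_and_minimal ϖ y h1 fun P _ hht hmem =>
    h2 P (mem_minimalPrimes_span_singleton_of_height_eq_one ϖ hϖ P hht hmem)

/-- **Reduced special fibre, divisibility form.**  If `z ∈ C` is divisible by `ϖ` in the
localisation at every minimal prime over `(ϖ)`, then `ϖ ∣ z` in `C`. -/
theorem dvd_of_forall_minimalPrimes (ϖ : C) (hϖ : ϖ ≠ 0) (z : C)
    (h : ∀ P ∈ (Ideal.span {ϖ} : Ideal C).minimalPrimes, ∃ s : C, s ∉ P ∧ ϖ ∣ s * z) :
    ϖ ∣ z := by
  have hinj : Function.Injective (algebraMap C (FractionRing C)) :=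
    IsFractionRing.injective C (FractionRing C)
  have hϖK : algebraMap C (FractionRing C) ϖ ≠ 0 := fun h0 => hϖ (hinj (by simpa using h0))
  have hy : algebraMap C (FractionRing C) z / algebraMap C (FractionRing C) ϖ ∈
      (algebraMap C (FractionRing C)).range := by
    refine mem_range_of_inv_and_minimalPrimes ϖ hϖ _ ⟨1, z, ?_⟩ fun P hP => ?_
    · rw [pow_one, mul_div_cancel₀ _ hϖK]
    · obtain ⟨s, hs, d, hd⟩ := h P hP
      refine ⟨s, hs, d, ?_⟩
      rw [← mul_div_assoc, eq_div_iff hϖK, ← map_mul, ← map_mul, hd, mul_comm]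
  obtain ⟨d, hd⟩ := hy
  refine ⟨d, hinj ?_⟩
  rw [map_mul, hd, mul_div_cancel₀ _ hϖK]

omit [IsDomain C] [IsIntegrallyClosed C] in
/-- An associated prime of `C ⧸ (a)` is the ideal of denominators of some `b / a`. -/
theorem exists_eq_denIdeal_of_mem_associatedPrimes (a : C) (ha : a ≠ 0) (P : Ideal C)
    (hP : P ∈ associatedPrimes C (C ⧸ Ideal.span {a})) :
    ∃ b : C, ∀ c : C, c ∈ P ↔
      algebraMap C K c * (algebraMap C K b / algebraMap C K a) ∈ (algebraMap C K).range := by
  have hinj : Function.Injective (algebraMap C K) := IsFractionRing.injective C K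
  have haK : algebraMap C K a ≠ 0 := fun h => ha (hinj (by simpa using h))
  obtain ⟨-, x, hx⟩ := (isAssociatedPrime_iff (I := P) (M := C ⧸ Ideal.span {a})).1 hP
  obtain ⟨b, rfl⟩ := Ideal.Quotient.mk_surjective x
  refine ⟨b, fun c => ?_⟩
  have hc : c ∈ P ↔ c * b ∈ Ideal.span {a} := by
    rw [hx, Submodule.mem_colon_singleton, Submodule.mem_bot, ← Ideal.Quotient.eq_zero_iff_mem,
      map_mul]
    rfl
  rw [hc, Ideal.mem_span_singleton']
  constructor
  · rintro ⟨d, hd⟩
    refine ⟨d, ?_⟩
    rw [← mul_div_assoc, eq_div_iff haK, ← map_mul, ← map_mul, hd]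
  · rintro ⟨d, hd⟩
    refine ⟨d, hinj ?_⟩
    rw [map_mul, map_mul, hd]
    field_simp

/-- **(K4)** In a noetherian integrally closed domain the associated primes of a nonzero
principal ideal have height one (no embedded components). -/
theorem height_eq_one_of_mem_associatedPrimes (a : C) (ha : a ≠ 0) (P : Ideal C)
    (hP : P ∈ associatedPrimes C (C ⧸ Ideal.span {a})) : P.height = 1 := by
  have : P.IsPrime := hP.isPrime
  obtain ⟨b, hb⟩ := exists_eq_denIdeal_of_mem_associatedPrimes (K := FractionRing C) a ha P hP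
  exact height_eq_one_of_denominators P _ hb

/-- **(K1)** The localisation of a noetherian integrally closed domain at a height-one prime is
a discrete valuation ring. -/
theorem isDiscreteValuationRing_atPrime_of_height_one (P : Ideal C) [hP : P.IsPrime]
    (hht : P.height = 1) : IsDiscreteValuationRing (Localization.AtPrime P) := by
  have hP0 : P ≠ ⊥ := by
    intro h
    rw [h, Ideal.height_bot] at hht
    exact zero_ne_one hht
  have hle : P.primeCompl ≤ nonZeroDivisors C := P.primeCompl_le_nonZeroDivisors
  have : IsDomain (Localization.AtPrime P) :=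
    IsLocalization.isDomain_localization hle
  have : IsNoetherianRing (Localization.AtPrime P) :=
    IsLocalization.isNoetherianRing P.primeCompl _ inferInstance
  have : IsIntegrallyClosed (Localization.AtPrime P) :=
    isIntegrallyClosed_of_isLocalization _ P.primeCompl hle
  have hinjA : Function.Injective (algebraMap C (Localization.AtPrime P)) :=
    IsLocalization.injective _ hle
  have hnf : ¬ IsField (Localization.AtPrime P) := by
    rw [IsLocalRing.isField_iff_maximalIdeal_eq]
    intro h
    have h1 : P.map (algebraMap C (Localization.AtPrime P)) = ⊥ := by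
      rw [Localization.AtPrime.map_eq_maximalIdeal, h]
    obtain ⟨x, hxP, hx0⟩ := Submodule.exists_mem_ne_zero_of_ne_bot hP0
    have hx : algebraMap C (Localization.AtPrime P) x ∈
        P.map (algebraMap C (Localization.AtPrime P)) := Ideal.mem_map_of_mem _ hxP
    rw [h1, Ideal.mem_bot] at hx
    exact hx0 (hinjA (by simpa using hx))
  have key : IsDiscreteValuationRing (Localization.AtPrime P) ↔
      IsIntegrallyClosed (Localization.AtPrime P) ∧
        ∃! Q : Ideal (Localization.AtPrime P), Q ≠ ⊥ ∧ Q.IsPrime :=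
    (IsDiscreteValuationRing.TFAE (Localization.AtPrime P) hnf).out 0 3
  have hmne : IsLocalRing.maximalIdeal (Localization.AtPrime P) ≠ ⊥ :=
    IsLocalRing.isField_iff_maximalIdeal_eq.not.1 hnf
  refine key.2 ⟨inferInstance, IsLocalRing.maximalIdeal (Localization.AtPrime P),
      ⟨hmne, inferInstance⟩, ?_⟩
  rintro Q ⟨hQ0, hQ⟩
  -- the contraction of `Q` is a nonzero prime contained in `P`, hence equal to `P`
  have hQ' : (Q.under C).IsPrime := hQ.comap _
  have hmap : (Q.under C).map (algebraMap C (Localization.AtPrime P)) = Q :=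
    IsLocalization.map_under P.primeCompl _ Q
  have hQle : Q.under C ≤ P := by
    have h1 := IsLocalRing.le_maximalIdeal hQ.ne_top
    have h2 : Q.under C ≤ (IsLocalRing.maximalIdeal (Localization.AtPrime P)).under C :=
      Ideal.comap_mono h1
    rwa [Localization.AtPrime.under_maximalIdeal] at h2
  have hQ'0 : Q.under C ≠ ⊥ := by
    intro h
    apply hQ0
    rw [← hmap, h, Ideal.map_bot]
  have heq : Q.under C = P := by
    by_contra hne
    have hlt : Q.under C < P := lt_of_le_of_ne hQle hne
    have h1 : P.height ≤ ((1 : ℕ) : ℕ∞) := by rw [hht]; rfl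
    have h3 := (Ideal.height_le_iff.1 h1) _ hQ' hlt
    have h0 : (Q.under C).height = 0 := by
      rw [Nat.cast_one] at h3
      exact Order.lt_one_iff.1 h3
    exact hQ'0 (Ideal.height_eq_zero_iff_eq_bot.1 h0)
  rw [← hmap, heq, Localization.AtPrime.map_eq_maximalIdeal]

end Fermat.Agent.S34.H54
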