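/-
S34 / B' (helper54): the Krull property in VALUATION-SUBRING form, Mathlib only (on top of
`Krull.lean`).

`C` a noetherian integrally closed domain with fraction field `K`.

* `locSubring P` : the local ring `C_P ⊆ K` of a prime `P` (any commutative ring `C`, field `K`).
* `exists_mul_eq_of_denominators` : a prime ideal of denominators `P = den(y)` has `π y = u`
  with `π ∈ P`, `u ∉ P` (so `P C_P` is generated by `y⁻¹`).
* `exists_notMem_of_forall_height_one_le` : the Krull property AT a prime `x`:
  `y ∈ C_P` for all height-one `P ≤ x` implies `y ∈ C_x`.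
* `heightOneVal P hht : ValuationSubring K` : `C_P` for a height-one prime `P`, a discrete
  valuation ring (`isDiscreteValuationRing_heightOneVal`), with `mem_heightOneVal_iff`.
* `heightOneFamily x` : the family `{C_P | ht P = 1, P ≤ x}`, and `krull_at` : an element lying
  in every member of the family is a fraction `a / b` with `b ∉ x`.
-/
import Fermat.Agent.S34.H54.Krull

set_option autoImplicit false

namespace Fermat.Agent.S34.H54

section Loc

variable {C : Type*} [CommRing C] {K : Type*} [Field K] [Algebra C K]

/-- The local ring of `C` at the prime `P`, as a subring of `K`: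
all `y` with `s * y ∈ C` for some `s ∉ P`. -/
def locSubring (P : Ideal C) [hP : P.IsPrime] : Subring K where
  carrier := {y | ∃ s : C, s ∉ P ∧ algebraMap C K s * y ∈ (algebraMap C K).range}
  mul_mem' := by
    rintro y z ⟨s, hs, a, ha⟩ ⟨t, ht, b, hb⟩
    refine ⟨s * t, fun h => (hP.mem_or_mem h).elim hs ht, a * b, ?_⟩
    rw [map_mul, map_mul, ha, hb]
    ring
  one_mem' := ⟨1, (Ideal.ne_top_iff_one P).1 hP.ne_top, 1, by simp⟩
  add_mem' := by
    rintro y z ⟨s, hs, a, ha⟩ ⟨t, ht, b, hb⟩
    refine ⟨s * t, fun h => (hP.mem_or_mem h).elim hs ht, t * a + s * b, ?_⟩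
    rw [map_add, map_mul, map_mul, map_mul, ha, hb]
    ring
  zero_mem' := ⟨1, (Ideal.ne_top_iff_one P).1 hP.ne_top, 0, by simp⟩
  neg_mem' := by
    rintro y ⟨s, hs, a, ha⟩
    exact ⟨s, hs, -a, by rw [map_neg, ha, mul_neg]⟩

theorem mem_locSubring {P : Ideal C} [P.IsPrime] {y : K} :
    y ∈ locSubring (K := K) P ↔
      ∃ s : C, s ∉ P ∧ algebraMap C K s * y ∈ (algebraMap C K).range := Iff.rfl

theorem algebraMap_mem_locSubring (P : Ideal C) [hP : P.IsPrime] (c : C) :
    algebraMap C K c ∈ locSubring (K := K) P :=
  ⟨1, (Ideal.ne_top_iff_one P).1 hP.ne_top, c, by simp⟩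

theorem locSubring_mono {P Q : Ideal C} [P.IsPrime] [Q.IsPrime] (h : P ≤ Q) :
    locSubring (K := K) Q ≤ locSubring (K := K) P := by
  rintro y ⟨s, hs, hy⟩
  exact ⟨s, fun hsP => hs (h hsP), hy⟩

end Loc

variable {C : Type*} [CommRing C] [IsDomain C] [IsNoetherianRing C] [IsIntegrallyClosed C]
variable {K : Type*} [Field K] [Algebra C K] [IsFractionRing C K]

/-- **Core, element form.**  If the prime `P` is the ideal of denominators of `y`, then
`π * y = u` for some `π ∈ P` and `u ∉ P`. -/
theorem exists_mul_eq_of_denominators (P : Ideal C) [hP : P.IsPrime] (y : K)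
    (hy : ∀ c : C, c ∈ P ↔ algebraMap C K c * y ∈ (algebraMap C K).range) :
    ∃ π ∈ P, ∃ u : C, u ∉ P ∧ algebraMap C K π * y = algebraMap C K u := by
  have hinj : Function.Injective (algebraMap C K) := IsFractionRing.injective C K
  have hy1 : y ∉ (algebraMap C K).range := by
    intro h
    have h1 : (1 : C) ∈ P := (hy 1).2 (by simpa using h)
    exact hP.ne_top ((Ideal.eq_top_iff_one P).2 h1)
  obtain ⟨a, b, hb, hab⟩ := IsFractionRing.div_surjective (A := C) y
  have hb0 : b ≠ 0 := nonZeroDivisors.ne_zero hb
  have hbK : algebraMap C K b ≠ 0 := fun h => hb0 (hinj (by simpa using h))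
  have hbP : b ∈ P := by
    refine (hy b).2 ⟨a, ?_⟩
    rw [← hab, mul_div_cancel₀ _ hbK]
  by_contra hcon
  have hA : ∀ π ∈ P, ∃ u ∈ P, algebraMap C K π * y = algebraMap C K u := by
    intro π hπ
    obtain ⟨u, hu⟩ := (hy π).1 hπ
    by_contra hne
    exact hcon ⟨π, hπ, u, fun huP => hne ⟨u, huP, hu.symm⟩, hu.symm⟩
  apply hy1
  let N : Submodule C K := Submodule.map (Algebra.linearMap C K) P
  have hN : N ≠ ⊥ := by
    intro h
    have hbN : algebraMap C K b ∈ N := ⟨b, hbP, rfl⟩
    rw [h, Submodule.mem_bot] at hbN
    exact hbK hbN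
  have hN' : N.FG := Submodule.FG.map _ (IsNoetherian.noetherian P)
  have hint : IsIntegral C y := by
    refine isIntegral_of_smul_mem_submodule N hN hN' y ?_
    rintro n ⟨π, hπ, rfl⟩
    obtain ⟨u, hu, hπu⟩ := hA π hπ
    refine ⟨u, hu, ?_⟩
    simp only [Algebra.linearMap_apply, smul_eq_mul]
    rw [← hπu, mul_comm]
  obtain ⟨c, hc⟩ := IsIntegrallyClosed.isIntegral_iff.1 hint
  exact ⟨c, hc⟩

omit [IsDomain C] [IsIntegrallyClosed C] [IsFractionRing C K] in
/-- Local form of `exists_prime_denIdeal`: if all denominators of `y` lie in the prime `x`,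
some multiple `c * y` has a PRIME ideal of denominators contained in `x`. -/
theorem exists_prime_denIdeal_le (x : Ideal C) [hx : x.IsPrime] (y : K)
    (hy : denIdeal (C := C) y ≤ x) :
    ∃ c : C, (denIdeal (C := C) (algebraMap C K c * y)).IsPrime ∧
      denIdeal (C := C) (algebraMap C K c * y) ≤ x := by
  let S : Set (Ideal C) :=
    {I | ∃ c : C, I = denIdeal (algebraMap C K c * y) ∧ I ≤ x}
  have hS : S.Nonempty := ⟨denIdeal (algebraMap C K 1 * y), 1, rfl, by simpa using hy⟩
  obtain ⟨P, ⟨c₀, rfl, hPx⟩, hmax⟩ :=
    set_has_maximal_iff_noetherian.2 (inferInstance : IsNoetherian C C) S hS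
  refine ⟨c₀, ?_, hPx⟩
  -- the ideal is saturated with respect to `x`
  have hsat : ∀ s : C, s ∉ x → ∀ c : C,
      s * c ∈ denIdeal (C := C) (algebraMap C K c₀ * y) →
      c ∈ denIdeal (C := C) (algebraMap C K c₀ * y) := by
    intro s hs c hsc
    have hle : denIdeal (C := C) (algebraMap C K c₀ * y) ≤
        denIdeal (algebraMap C K (s * c₀) * y) := by
      intro d hd
      rw [mem_denIdeal] at hd ⊢
      have := mul_mem (⟨s, rfl⟩ : algebraMap C K s ∈ (algebraMap C K).range) hd
      have e : algebraMap C K d * (algebraMap C K (s * c₀) * y) =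
          algebraMap C K s * (algebraMap C K d * (algebraMap C K c₀ * y)) := by
        rw [map_mul]; ring
      rwa [e]
    have hlex : denIdeal (C := C) (algebraMap C K (s * c₀) * y) ≤ x := by
      intro d hd
      have hd' : d * s ∈ denIdeal (C := C) (algebraMap C K c₀ * y) := by
        rw [mem_denIdeal] at hd ⊢
        have e : algebraMap C K (d * s) * (algebraMap C K c₀ * y) =
            algebraMap C K d * (algebraMap C K (s * c₀) * y) := by
          rw [map_mul, map_mul]; ring
        rwa [e]
      exact (hx.mem_or_mem (hPx hd')).resolve_right hs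
    have hnlt := hmax (denIdeal (algebraMap C K (s * c₀) * y)) ⟨s * c₀, rfl, hlex⟩
    have heq : denIdeal (C := C) (algebraMap C K c₀ * y) =
        denIdeal (algebraMap C K (s * c₀) * y) := eq_of_le_of_not_lt hle hnlt
    rw [heq, mem_denIdeal]
    rw [mem_denIdeal] at hsc
    have e : algebraMap C K c * (algebraMap C K (s * c₀) * y) =
        algebraMap C K (s * c) * (algebraMap C K c₀ * y) := by
      rw [map_mul, map_mul]; ring
    rwa [e]
  rw [Ideal.isPrime_iff]
  constructor
  · intro h
    exact hx.ne_top (top_le_iff.1 (h ▸ hPx))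
  · intro a b hab
    by_cases ha : a ∈ denIdeal (C := C) (algebraMap C K c₀ * y)
    · exact Or.inl ha
    · right
      have hle : denIdeal (C := C) (algebraMap C K c₀ * y) ≤
          denIdeal (algebraMap C K (a * c₀) * y) := by
        intro c hc
        rw [mem_denIdeal] at hc ⊢
        have := mul_mem (⟨a, rfl⟩ : algebraMap C K a ∈ (algebraMap C K).range) hc
        have e : algebraMap C K c * (algebraMap C K (a * c₀) * y) =
            algebraMap C K a * (algebraMap C K c * (algebraMap C K c₀ * y)) := by
          rw [map_mul]; ring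
        rwa [e]
      have hb : b ∈ denIdeal (C := C) (algebraMap C K (a * c₀) * y) := by
        rw [mem_denIdeal] at hab ⊢
        have e : algebraMap C K b * (algebraMap C K (a * c₀) * y) =
            algebraMap C K (a * b) * (algebraMap C K c₀ * y) := by
          rw [map_mul, map_mul]; ring
        rwa [e]
      by_cases hlex : denIdeal (C := C) (algebraMap C K (a * c₀) * y) ≤ x
      · have hnlt := hmax (denIdeal (algebraMap C K (a * c₀) * y)) ⟨a * c₀, rfl, hlex⟩
        have heq : denIdeal (C := C) (algebraMap C K c₀ * y) =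
            denIdeal (algebraMap C K (a * c₀) * y) := eq_of_le_of_not_lt hle hnlt
        rw [heq]
        exact hb
      · exfalso
        obtain ⟨s, hs, hsx⟩ := Set.not_subset.1 hlex
        apply ha
        refine hsat s hsx a ?_
        have hs' : s ∈ denIdeal (C := C) (algebraMap C K (a * c₀) * y) := hs
        rw [mem_denIdeal] at hs' ⊢
        have e : algebraMap C K (s * a) * (algebraMap C K c₀ * y) =
            algebraMap C K s * (algebraMap C K (a * c₀) * y) := by
          rw [map_mul, map_mul]; ring
        rwa [e]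

/-- **Krull property at a prime `x`.**  If `y` lies in `C_P` for every height-one prime
`P ≤ x`, then `y` lies in `C_x`. -/
theorem exists_notMem_of_forall_height_one_le (x : Ideal C) [hx : x.IsPrime] (y : K)
    (h : ∀ P : Ideal C, P.IsPrime → P.height = 1 → P ≤ x →
      ∃ s : C, s ∉ P ∧ algebraMap C K s * y ∈ (algebraMap C K).range) :
    ∃ s : C, s ∉ x ∧ algebraMap C K s * y ∈ (algebraMap C K).range := by
  by_contra hcon
  have hy : denIdeal (C := C) y ≤ x := by
    intro s hs
    by_contra hsx
    exact hcon ⟨s, hsx, hs⟩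
  obtain ⟨c₀, hprime, hle⟩ := exists_prime_denIdeal_le x y hy
  have hht : (denIdeal (C := C) (algebraMap C K c₀ * y)).height = 1 :=
    height_eq_one_of_denominators _ (algebraMap C K c₀ * y) (fun c => Iff.rfl)
  obtain ⟨s, hs, hsy⟩ := h _ hprime hht hle
  apply hs
  rw [mem_denIdeal]
  have := mul_mem (⟨c₀, rfl⟩ : algebraMap C K c₀ ∈ (algebraMap C K).range) hsy
  have e : algebraMap C K s * (algebraMap C K c₀ * y) =
      algebraMap C K c₀ * (algebraMap C K s * y) := by ring
  rwa [e]

/-- The local ring at a height-one prime of a noetherian integrally closed domain is a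
valuation ring of the fraction field. -/
theorem mem_or_inv_mem_locSubring (P : Ideal C) [hP : P.IsPrime] (hht : P.height = 1) (y : K) :
    y ∈ locSubring (K := K) P ∨ y⁻¹ ∈ locSubring (K := K) P := by
  have hinj : Function.Injective (algebraMap C K) := IsFractionRing.injective C K
  by_cases hy : y ∈ locSubring (K := K) P
  · exact Or.inl hy
  right
  have hy0 : y ≠ 0 := fun h => hy (h ▸ (locSubring (K := K) P).zero_mem)
  have hden : denIdeal (C := C) y ≤ P := by
    intro s hs
    by_contra hsP
    exact hy ⟨s, hsP, hs⟩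
  obtain ⟨c₀, hprime, hle⟩ := exists_prime_denIdeal_le P y hden
  -- the prime ideal of denominators is nonzero, hence equal to `P`
  have hne : denIdeal (C := C) (algebraMap C K c₀ * y) ≠ ⊥ := by
    obtain ⟨a, b, hb, hab⟩ := IsFractionRing.div_surjective (A := C) (algebraMap C K c₀ * y)
    have hb0 : b ≠ 0 := nonZeroDivisors.ne_zero hb
    have hbK : algebraMap C K b ≠ 0 := fun h => hb0 (hinj (by simpa using h))
    intro h
    have hbP : b ∈ denIdeal (C := C) (algebraMap C K c₀ * y) := by
      rw [mem_denIdeal]
      refine ⟨a, ?_⟩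
      rw [← hab, mul_div_cancel₀ _ hbK]
    rw [h, Ideal.mem_bot] at hbP
    exact hb0 hbP
  have heq : denIdeal (C := C) (algebraMap C K c₀ * y) = P := by
    by_contra hneq
    have hlt : denIdeal (C := C) (algebraMap C K c₀ * y) < P := lt_of_le_of_ne hle hneq
    have h1 : P.height ≤ ((1 : ℕ) : ℕ∞) := by rw [hht]; rfl
    have h3 := (Ideal.height_le_iff.1 h1) _ hprime hlt
    have h0 : (denIdeal (C := C) (algebraMap C K c₀ * y)).height = 0 := by
      rw [Nat.cast_one] at h3
      exact Order.lt_one_iff.1 h3
    exact hne (Ideal.height_eq_zero_iff_eq_bot.1 h0)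
  have hiff : ∀ c : C, c ∈ P ↔
      algebraMap C K c * (algebraMap C K c₀ * y) ∈ (algebraMap C K).range := by
    intro c
    rw [← heq]
    exact Iff.rfl
  obtain ⟨π, -, u, hu, hπu⟩ := exists_mul_eq_of_denominators P (algebraMap C K c₀ * y) hiff
  refine ⟨u, hu, π * c₀, ?_⟩
  rw [← hπu, map_mul]
  field_simp

/-- The local ring `C_P ⊆ K` at a height-one prime `P` of a noetherian integrally closed
domain, as a valuation subring of the fraction field. -/
def heightOneVal (P : Ideal C) [P.IsPrime] (hht : P.height = 1) : ValuationSubring K :=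
  { locSubring (K := K) P with
    mem_or_inv_mem' := mem_or_inv_mem_locSubring P hht }

theorem mem_heightOneVal_iff (P : Ideal C) [P.IsPrime] (hht : P.height = 1) (y : K) :
    y ∈ heightOneVal (K := K) P hht ↔
      ∃ s : C, s ∉ P ∧ algebraMap C K s * y ∈ (algebraMap C K).range := Iff.rfl

theorem algebraMap_mem_heightOneVal (P : Ideal C) [P.IsPrime] (hht : P.height = 1) (c : C) :
    algebraMap C K c ∈ heightOneVal (K := K) P hht :=
  algebraMap_mem_locSubring P c

/-- For `c ≠ 0` in `C`: `c` is a unit of `C_P` iff `c ∉ P`. -/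
theorem inv_algebraMap_mem_heightOneVal_iff (P : Ideal C) [hP : P.IsPrime] (hht : P.height = 1)
    (c : C) (hc : c ≠ 0) :
    (algebraMap C K c)⁻¹ ∈ heightOneVal (K := K) P hht ↔ c ∉ P := by
  have hinj : Function.Injective (algebraMap C K) := IsFractionRing.injective C K
  have hcK : algebraMap C K c ≠ 0 := fun h => hc (hinj (by simpa using h))
  constructor
  · rintro ⟨s, hs, a, ha⟩ hcP
    apply hs
    have : s = a * c := by
      apply hinj
      rw [map_mul, ha]
      field_simp
    rw [this]
    exact P.mul_mem_left a hcP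
  · intro hcP
    exact ⟨c, hcP, 1, by rw [map_one, mul_inv_cancel₀ hcK]⟩

omit [IsDomain C] [IsNoetherianRing C] [IsIntegrallyClosed C] in
theorem isUnit_algebraMap_of_notMem (P : Ideal C) [P.IsPrime] (s : P.primeCompl) :
    IsUnit (algebraMap C K (s : C)) := by
  have hinj : Function.Injective (algebraMap C K) := IsFractionRing.injective C K
  refine IsUnit.mk0 _ fun h => s.2 ?_
  have h0 : (s : C) = 0 := hinj (by simpa using h)
  rw [h0]
  exact P.zero_mem

/-- The canonical map from the localisation `Localization.AtPrime P` to the fraction field. -/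
noncomputable def atPrimeToField (P : Ideal C) [P.IsPrime] : Localization.AtPrime P →+* K :=
  IsLocalization.lift (M := P.primeCompl) (g := algebraMap C K)
    (isUnit_algebraMap_of_notMem (K := K) P)

omit [IsNoetherianRing C] [IsIntegrallyClosed C] in
theorem atPrimeToField_injective (P : Ideal C) [P.IsPrime] :
    Function.Injective (atPrimeToField (K := K) P) := by
  have hinj : Function.Injective (algebraMap C K) := IsFractionRing.injective C K
  have hinjA : Function.Injective (algebraMap C (Localization.AtPrime P)) :=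
    IsLocalization.injective _ P.primeCompl_le_nonZeroDivisors
  refine (IsLocalization.lift_injective_iff (M := P.primeCompl) (S := Localization.AtPrime P)
    (isUnit_algebraMap_of_notMem (K := K) P)).2 fun a b => ?_
  rw [hinj.eq_iff, hinjA.eq_iff]

omit [IsDomain C] [IsNoetherianRing C] [IsIntegrallyClosed C] in
theorem range_atPrimeToField (P : Ideal C) [P.IsPrime] :
    (atPrimeToField (K := K) P).range = locSubring (K := K) P := by
  ext y
  constructor
  · rintro ⟨z, rfl⟩
    obtain ⟨⟨a, s⟩, rfl⟩ := IsLocalization.mk'_surjective P.primeCompl z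
    refine ⟨s, s.2, a, ?_⟩
    exact (IsLocalization.lift_mk'_spec (M := P.primeCompl) (S := Localization.AtPrime P)
      (isUnit_algebraMap_of_notMem (K := K) P) a _ s).1 rfl
  · rintro ⟨s, hs, a, ha⟩
    exact ⟨IsLocalization.mk' _ a (⟨s, hs⟩ : P.primeCompl),
      (IsLocalization.lift_mk'_spec (M := P.primeCompl) (S := Localization.AtPrime P)
        (isUnit_algebraMap_of_notMem (K := K) P) a y ⟨s, hs⟩).2 ha⟩

/-- `Localization.AtPrime P ≃+* C_P ⊆ K` for a height-one prime `P`. -/
noncomputable def atPrimeEquivHeightOneVal (P : Ideal C) [P.IsPrime] (hht : P.height = 1) :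
    Localization.AtPrime P ≃+* ↥(heightOneVal (K := K) P hht) :=
  RingEquiv.ofBijective
    ((atPrimeToField (K := K) P).codRestrict (heightOneVal (K := K) P hht).toSubring
      (fun z => by
        have h : atPrimeToField (K := K) P z ∈ (atPrimeToField (K := K) P).range := ⟨z, rfl⟩
        rw [range_atPrimeToField] at h
        exact h))
    ⟨fun a b hab => atPrimeToField_injective (K := K) P (congrArg Subtype.val hab),
      fun y => by
        have h : (y : K) ∈ locSubring (K := K) P := y.2
        rw [← range_atPrimeToField] at h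
        obtain ⟨z, hz⟩ := h
        exact ⟨z, Subtype.ext hz⟩⟩

/-- The local ring at a height-one prime of a noetherian integrally closed domain is a
discrete valuation ring. -/
theorem isDiscreteValuationRing_heightOneVal (P : Ideal C) [P.IsPrime] (hht : P.height = 1) :
    IsDiscreteValuationRing ↥(heightOneVal (K := K) P hht) := by
  have hdvr : IsDiscreteValuationRing (Localization.AtPrime P) :=
    isDiscreteValuationRing_atPrime_of_height_one P hht
  have hdom : IsDomain (Localization.AtPrime P) :=
    IsLocalization.isDomain_localization P.primeCompl_le_nonZeroDivisors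
  exact IsDiscreteValuationRing.RingEquivClass.isDiscreteValuationRing
    (atPrimeEquivHeightOneVal (K := K) P hht)

/-- The family of the local rings at the height-one primes contained in `x`. -/
def heightOneFamily (x : Ideal C) : Set (ValuationSubring K) :=
  {V | ∃ (P : Ideal C) (hP : P.IsPrime) (hht : P.height = 1),
    P ≤ x ∧ V = @heightOneVal C _ _ _ _ K _ _ _ P hP hht}

theorem algebraMap_mem_of_mem_heightOneFamily {x : Ideal C} {V : ValuationSubring K}
    (hV : V ∈ heightOneFamily (K := K) x) (c : C) : algebraMap C K c ∈ V := by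
  obtain ⟨P, hP, hht, -, rfl⟩ := hV
  exact algebraMap_mem_heightOneVal P hht c

theorem isDiscreteValuationRing_of_mem_heightOneFamily {x : Ideal C} {V : ValuationSubring K}
    (hV : V ∈ heightOneFamily (K := K) x) : IsDiscreteValuationRing ↥V := by
  obtain ⟨P, hP, hht, -, rfl⟩ := hV
  exact isDiscreteValuationRing_heightOneVal P hht

/-- **Krull property at `x`, valuation form.**  An element of `K` lying in the local ring of
every height-one prime contained in the prime `x` is a fraction `a / b` with `b ∉ x`. -/
theorem krull_at (x : Ideal C) [x.IsPrime] (y : K)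
    (h : ∀ V ∈ heightOneFamily (K := K) x, y ∈ V) :
    ∃ a b : C, b ∉ x ∧ y * algebraMap C K b = algebraMap C K a := by
  obtain ⟨s, hs, a, ha⟩ := exists_notMem_of_forall_height_one_le x y fun P hP hht hle =>
    (mem_heightOneVal_iff P hht y).1 (h _ ⟨P, hP, hht, hle, rfl⟩)
  exact ⟨a, s, hs, by rw [ha, mul_comm]⟩

/-- **Krull property, global valuation form.**  An element of `K` lying in the local ring of
every height-one prime lies in `C`. -/
theorem krull_top (y : K)
    (h : ∀ (P : Ideal C) (hP : P.IsPrime) (hht : P.height = 1),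
      y ∈ @heightOneVal C _ _ _ _ K _ _ _ P hP hht) :
    y ∈ (algebraMap C K).range :=
  mem_range_of_forall_height_one y fun P hP hht => (mem_heightOneVal_iff P hht y).1 (h P hP hht)

end Fermat.Agent.S34.H54
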