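/-
S34 / B' (helper54): automorphisms and the height-one valuation subrings of `KrullVal.lean`.

* `comap_heightOneVal` : for `e : C ≃+* C` and `σ : K ≃+* K` with `σ ∘ algebraMap = algebraMap ∘ e`:
  `(C_P).comap σ = C_{e⁻¹ P}`.
* `comap_mem_heightOneFamily` : if moreover `e⁻¹ x = x` the family `heightOneFamily x` is stable
  under `V ↦ V.comap σ`.
* Subalgebra vocabulary (`C : Subalgebra A₀ F`, `τ : F ≃+* F` with `τ c ∈ C ↔ c ∈ C`):
  `isFractionRing_of_forall_div`, `restrictEquiv`, `comap_mem_heightOneFamily_of_mem_iff`.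
-/
import Fermat.Agent.S34.H54.KrullVal

set_option autoImplicit false

namespace Fermat.Agent.S34.H54

section General

variable {C : Type*} [CommRing C] [IsDomain C] [IsNoetherianRing C] [IsIntegrallyClosed C]
variable {K : Type*} [Field K] [Algebra C K] [IsFractionRing C K]

omit [IsDomain C] [IsNoetherianRing C] [IsIntegrallyClosed C] [IsFractionRing C K] in
/-- `σ` maps `C_{e⁻¹ P}` onto `C_P`. -/
theorem map_mem_locSubring_iff (e : C ≃+* C) (σ : K ≃+* K)
    (hσ : ∀ c : C, σ (algebraMap C K c) = algebraMap C K (e c)) (P : Ideal C) [hP : P.IsPrime]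
    (y : K) :
    σ y ∈ locSubring (K := K) P ↔
      y ∈ @locSubring C _ K _ _ (P.comap (e : C →+* C)) (hP.comap _) := by
  have hσ' : ∀ c : C, σ.symm (algebraMap C K c) = algebraMap C K (e.symm c) := by
    intro c
    apply σ.injective
    rw [RingEquiv.apply_symm_apply, hσ, RingEquiv.apply_symm_apply]
  constructor
  · rintro ⟨s, hs, a, ha⟩
    refine ⟨e.symm s, ?_, e.symm a, ?_⟩
    · intro h
      apply hs
      have : (e : C →+* C) (e.symm s) ∈ P := h
      simpa using this
    · apply σ.injective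
      rw [hσ, RingEquiv.apply_symm_apply, map_mul, hσ, RingEquiv.apply_symm_apply, ha]
  · rintro ⟨s, hs, a, ha⟩
    refine ⟨e s, hs, e a, ?_⟩
    rw [← hσ, ← hσ, ← map_mul, ha]

/-- `(C_P).comap σ = C_{e⁻¹ P}` for a height-one prime `P`. -/
theorem comap_heightOneVal (e : C ≃+* C) (σ : K ≃+* K)
    (hσ : ∀ c : C, σ (algebraMap C K c) = algebraMap C K (e c)) (P : Ideal C) [hP : P.IsPrime]
    (hht : P.height = 1) :
    (heightOneVal (K := K) P hht).comap (σ : K →+* K) =
      @heightOneVal C _ _ _ _ K _ _ _ (P.comap (e : C →+* C)) (hP.comap _)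
        ((RingEquiv.height_comap e P).trans hht) := by
  ext y
  exact map_mem_locSubring_iff e σ hσ P y

/-- The family of the height-one local rings below `x` is stable under an automorphism
fixing `x`. -/
theorem comap_mem_heightOneFamily (e : C ≃+* C) (σ : K ≃+* K)
    (hσ : ∀ c : C, σ (algebraMap C K c) = algebraMap C K (e c)) (x : Ideal C)
    (hx : ∀ c : C, e c ∈ x ↔ c ∈ x) {V : ValuationSubring K}
    (hV : V ∈ heightOneFamily (K := K) x) :
    V.comap (σ : K →+* K) ∈ heightOneFamily (K := K) x := by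
  obtain ⟨P, hP, hht, hle, rfl⟩ := hV
  refine ⟨P.comap (e : C →+* C), hP.comap _, (RingEquiv.height_comap e P).trans hht, ?_,
    comap_heightOneVal e σ hσ P hht⟩
  intro c hc
  exact (hx c).1 (hle hc)

/-- Membership of `ϖ⁻¹`-type elements is transported: `z ∈ V.comap σ ↔ σ z ∈ V`. -/
theorem mem_comap_heightOneVal_iff (σ : K ≃+* K) (V : ValuationSubring K) (z : K) :
    z ∈ V.comap (σ : K →+* K) ↔ σ z ∈ V := Iff.rfl

end General

section Subalgebra

variable {A₀ F : Type*} [CommRing A₀] [Field F] [Algebra A₀ F]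

/-- A subalgebra of a field all of whose elements are fractions of elements of the subalgebra
has the field as its fraction field. -/
theorem isFractionRing_of_forall_div (C : Subalgebra A₀ F)
    (h : ∀ y : F, ∃ a ∈ C, ∃ b ∈ C, b ≠ 0 ∧ y = a / b) : IsFractionRing ↥C F := by
  refine IsFractionRing.of_field ↥C F fun y => ?_
  obtain ⟨a, ha, b, hb, -, rfl⟩ := h y
  exact ⟨⟨a, ha⟩, ⟨b, hb⟩, rfl⟩

/-- The automorphism of a subalgebra `C ⊆ F` induced by `τ : F ≃+* F` with `τ c ∈ C ↔ c ∈ C`. -/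
def restrictEquiv (C : Subalgebra A₀ F) (τ : F ≃+* F) (h : ∀ c : F, τ c ∈ C ↔ c ∈ C) :
    ↥C ≃+* ↥C where
  toFun c := ⟨τ c, (h c).2 c.2⟩
  invFun c := ⟨τ.symm c, (h (τ.symm c)).1 (by rw [RingEquiv.apply_symm_apply]; exact c.2)⟩
  left_inv c := Subtype.ext (τ.symm_apply_apply c)
  right_inv c := Subtype.ext (τ.apply_symm_apply c)
  map_mul' a b := Subtype.ext (map_mul τ (a : F) (b : F))
  map_add' a b := Subtype.ext (map_add τ (a : F) (b : F))

@[simp]
theorem coe_restrictEquiv (C : Subalgebra A₀ F) (τ : F ≃+* F) (h : ∀ c : F, τ c ∈ C ↔ c ∈ C)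
    (c : ↥C) : ((restrictEquiv C τ h c : ↥C) : F) = τ c := rfl

/-- Subalgebra form of `comap_mem_heightOneFamily`: for a noetherian integrally closed
subalgebra `C` of its fraction field `F`, an automorphism `τ` of `F` preserving `C` and the
prime `x` permutes the local rings at the height-one primes below `x`. -/
theorem comap_mem_heightOneFamily_of_mem_iff (C : Subalgebra A₀ F) [IsNoetherianRing ↥C]
    [IsIntegrallyClosed ↥C] [IsFractionRing ↥C F] (τ : F ≃+* F)
    (h : ∀ c : F, τ c ∈ C ↔ c ∈ C) (x : Ideal ↥C)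
    (hx : ∀ c : ↥C, restrictEquiv C τ h c ∈ x ↔ c ∈ x) {V : ValuationSubring F}
    (hV : V ∈ heightOneFamily (K := F) x) :
    V.comap (τ : F →+* F) ∈ heightOneFamily (K := F) x :=
  comap_mem_heightOneFamily (restrictEquiv C τ h) τ (fun _ => rfl) x hx hV

end Subalgebra

end Fermat.Agent.S34.H54
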